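import Fermat.Agent.S59.G4.H109.Points
import Fermat.Prelude.Def_GaloisRep_LocalConditions

/-!
# Row HARD, leaves (ST) / (NU): the **KILL** lemma — from points to the module   (helper113)

Clauses (SUPP-NU) and (ST) of `S38.IA.HasIAModule` are statements on a module `M` over the Hecke
ring `T`, while the Galois input (`StGal`, `NuGal`) is pointwise.  The bridge:

* `exists_scalar_of_ann` (Mathlib only): `a ∈ T` integral over the domain `𝒪`, `a M = 0`,
  `χ : T → D` a point (`D` a domain) with `χ a ≠ 0`.  Then there are `c ∈ T` and `0 ≠ λ ∈ 𝒪`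
  with `χ c = 0` and `c m = λ m` for all `m ∈ M`.   (`g(a) = 0`, `g = X^k h`, `h(0) ≠ 0`:
  `c = h(a)`, `λ = h(0)`.)
* `kill_of_points` (Mathlib only): `T` integral over `𝒪`, `M` an `𝒪`-torsion-free `T`-module,
  a finite jointly injective family of points `χ_j : T → D_j`; if `t ∈ T` vanishes at every
  point of the family which kills `Ann_T(M)`, then `t M = 0`.
* `kill` : the same for a reduced local ring `T`, finite and free over a complete DVR `𝒪` of
  characteristic `0` with finite residue field, with `p`-adic points (`S31.PadicPoint`, all of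
  them local homomorphisms): if `χ t = 0` at every local `p`-adic point `χ` with
  `Ann_T(M) ≤ ker χ`, then `t M = 0`.   (Points exist by `S59.G4.H109.points`.)
* `suppNU_of_points` : clause (SUPP-NU) VERBATIM (for any `T`, `ρ`, `Piv`) from the pointwise
  statement "every local `p`-adic point through `Ann_T(M)` is not unipotent at the pivots".
-/

set_option autoImplicit false
set_option linter.style.haveILetI false

open Polynomial IsLocalRing

namespace Fermat.Agent.S38.H113

/-! ## Mathlib-only part -/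

section Abstract

variable {𝒪 T : Type*} [CommRing 𝒪] [IsDomain 𝒪] [CommRing T] [Algebra 𝒪 T]
  {M : Type*} [AddCommGroup M] [Module T M]

omit [IsDomain 𝒪] in
/-- The value of a polynomial at an element killing `M` acts on `M` as the constant term. -/
theorem aeval_smul_of_ann (a : T) (ha : ∀ m : M, a • m = 0) (h : 𝒪[X]) (m : M) :
    (aeval a h) • m = algebraMap 𝒪 T (h.coeff 0) • m := by
  have e : h = divX h * X + C (h.coeff 0) := (divX_mul_X_add h).symm
  have e2 : aeval a h = aeval a (divX h) * a + algebraMap 𝒪 T (h.coeff 0) := by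
    conv_lhs => rw [e]
    rw [map_add, map_mul, aeval_X, aeval_C]
  rw [e2, add_smul, mul_smul, ha m, smul_zero, zero_add]

/-- **The local step.**  An element `a` of `Ann_T(M)`, integral over `𝒪`, which does not vanish
at the point `χ`, gives `c ∈ T` vanishing at `χ` and acting on `M` as a nonzero scalar. -/
theorem exists_scalar_of_ann {D : Type*} [CommRing D] [IsDomain D] (χ : T →+* D)
    (a : T) (hint : IsIntegral 𝒪 a) (ha : ∀ m : M, a • m = 0) (hχ : χ a ≠ 0) :
    ∃ (c : T) (l : 𝒪), l ≠ 0 ∧ χ c = 0 ∧ ∀ m : M, c • m = algebraMap 𝒪 T l • m := by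
  obtain ⟨g, hgmonic, hg⟩ := hint
  have hg0 : g ≠ 0 := hgmonic.ne_zero
  obtain ⟨h, hgh, hh⟩ := Polynomial.exists_eq_pow_rootMultiplicity_mul_and_not_dvd g hg0 0
  rw [map_zero, sub_zero] at hgh hh
  have hh0 : h.coeff 0 ≠ 0 := by
    intro h0
    apply hh
    rw [Polynomial.X_dvd_iff]
    exact h0
  refine ⟨aeval a h, h.coeff 0, hh0, ?_, fun m => aeval_smul_of_ann a ha h m⟩
  have h1 : aeval a g = 0 := by
    rw [← hg]; rfl
  rw [hgh, map_mul, map_pow, aeval_X] at h1
  have h2 := congrArg χ h1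
  rw [map_mul, map_pow, map_zero] at h2
  rcases mul_eq_zero.mp h2 with h3 | h3
  · exact absurd h3 (pow_ne_zero _ hχ)
  · exact h3

/-- **KILL, abstract form.**  `M` is `𝒪`-torsion-free; the points `χ j` (`j ∈ s`) are jointly
injective; `t` vanishes at every point which kills the annihilator of `M`. -/
theorem kill_of_points [Algebra.IsIntegral 𝒪 T]
    (htf : ∀ l : 𝒪, l ≠ 0 → ∀ m : M, algebraMap 𝒪 T l • m = 0 → m = 0)
    {ι : Type*} (s : Finset ι) (D : ι → Type*) [∀ j, CommRing (D j)] [∀ j, IsDomain (D j)]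
    (χ : ∀ j, T →+* D j)
    (hinj : ∀ u : T, (∀ j ∈ s, χ j u = 0) → u = 0)
    (t : T)
    (ht : ∀ j ∈ s, (∀ a : T, (∀ m : M, a • m = 0) → χ j a = 0) → χ j t = 0) :
    ∀ m : M, t • m = 0 := by
  classical
  -- for every point: `c` acting as a nonzero scalar with `χ (t c) = 0`
  have hloc : ∀ j ∈ s, ∃ (c : T) (l : 𝒪), l ≠ 0 ∧ χ j (t * c) = 0 ∧
      ∀ m : M, c • m = algebraMap 𝒪 T l • m := by
    intro j hj
    by_cases hj1 : ∀ a : T, (∀ m : M, a • m = 0) → χ j a = 0
    · refine ⟨1, 1, one_ne_zero, ?_, fun m => by rw [map_one]⟩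
      rw [mul_one]
      exact ht j hj hj1
    · obtain ⟨a, hna⟩ := not_forall.mp hj1
      obtain ⟨ha, hχa⟩ := Classical.not_imp.mp hna
      obtain ⟨c, l, hl, hc, hcm⟩ :=
        exists_scalar_of_ann (𝒪 := 𝒪) (χ j) a (Algebra.IsIntegral.isIntegral a) ha hχa
      exact ⟨c, l, hl, by rw [map_mul, hc, mul_zero], hcm⟩
  -- the product over a finset
  have hprod : ∀ s' : Finset ι, s' ⊆ s → ∃ (c : T) (l : 𝒪), l ≠ 0 ∧
      (∀ j ∈ s', χ j (t * c) = 0) ∧ ∀ m : M, c • m = algebraMap 𝒪 T l • m := by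
    intro s'
    induction s' using Finset.induction_on with
    | empty =>
      intro _
      exact ⟨1, 1, one_ne_zero, fun j hj => absurd hj (Finset.notMem_empty j),
        fun m => by rw [map_one]⟩
    | insert j₀ s' hj₀ ih =>
      intro hsub
      obtain ⟨c, l, hl, hc, hcm⟩ := ih (fun j hj => hsub (Finset.mem_insert_of_mem hj))
      obtain ⟨c₀, l₀, hl₀, hc₀, hcm₀⟩ := hloc j₀ (hsub (Finset.mem_insert_self j₀ s'))
      refine ⟨c₀ * c, l₀ * l, mul_ne_zero hl₀ hl, ?_, ?_⟩
      · intro j hj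
        rcases Finset.mem_insert.mp hj with rfl | hj'
        · have : t * (c₀ * c) = (t * c₀) * c := by ring
          rw [this, map_mul, hc₀, zero_mul]
        · have : t * (c₀ * c) = (t * c) * c₀ := by ring
          rw [this, map_mul, hc j hj', zero_mul]
      · intro m
        rw [mul_smul, hcm m, hcm₀, map_mul, mul_smul]
  obtain ⟨c, l, hl, hc, hcm⟩ := hprod s (Finset.Subset.refl s)
  have h0 : t * c = 0 := hinj _ hc
  intro m
  apply htf l hl
  have : algebraMap 𝒪 T l • (t • m) = (t * c) • m := by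
    rw [mul_smul, hcm m, smul_comm]
  rw [this, h0, zero_smul]

end Abstract

/-! ## `p`-adic points of a reduced local finite free algebra over a complete DVR -/

section Padic

open Fermat.Agent.S31 Fermat.Agent.S59.G4

variable (p : ℕ) [Fact p.Prime]
  {𝒪 : Type} [CommRing 𝒪] [IsDomain 𝒪] [IsDiscreteValuationRing 𝒪]
  [IsAdicComplete (maximalIdeal 𝒪) 𝒪] [Finite (ResidueField 𝒪)] [CharZero 𝒪]
  {T : Type} [CommRing T] [IsLocalRing T] [Algebra 𝒪 T] [Module.Finite 𝒪 T] [Module.Free 𝒪 T]
  [IsReduced T]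
  {M : Type*} [AddCommGroup M] [Module T M]

/-- **KILL.**  `T` reduced local, finite free over the complete DVR `𝒪`; `M` an `𝒪`-torsion-free
`T`-module.  If `t ∈ T` vanishes at every local `p`-adic point of `T` which kills `Ann_T(M)`,
then `t M = 0`. -/
theorem kill (hp𝒪 : (p : 𝒪) ∈ maximalIdeal 𝒪)
    (htf : ∀ l : 𝒪, l ≠ 0 → ∀ m : M, algebraMap 𝒪 T l • m = 0 → m = 0)
    (t : T)
    (ht : ∀ P : PadicPoint p T, IsLocalHom P.χ →
      (∀ a : T, (∀ m : M, a • m = 0) → P.χ a = 0) → P.χ t = 0) :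
    ∀ m : M, t • m = 0 := by
  classical
  obtain ⟨F, hF, hloc⟩ := Fermat.Agent.S59.G4.H109.points p 𝒪 hp𝒪 T
  haveI : IsNoetherianRing T := IsNoetherianRing.of_finite 𝒪 T
  haveI : Algebra.IsIntegral 𝒪 T := Algebra.IsIntegral.of_finite 𝒪 T
  -- joint injectivity
  have hinj : ∀ u : T, (∀ j ∈ (Finset.univ : Finset (Fin F.length)), (F.get j).χ u = 0) →
      u = 0 := by
    intro u hu
    have hmem : ∀ n : ℕ, u ∈ maximalIdeal T ^ n := by
      intro n
      obtain ⟨n', hn'⟩ := hF n
      apply hn' u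
      intro P hP
      obtain ⟨j, rfl⟩ := List.mem_iff_get.mp hP
      rw [hu j (Finset.mem_univ j)]
      exact Ideal.zero_mem _
    have hbot : (⨅ n : ℕ, maximalIdeal T ^ n) = ⊥ :=
      Ideal.iInf_pow_eq_bot_of_isLocalRing (maximalIdeal T) (IsLocalRing.maximalIdeal.isMaximal T).ne_top
    have : u ∈ (⨅ n : ℕ, maximalIdeal T ^ n) := by
      rw [Ideal.mem_iInf]
      exact hmem
    rw [hbot] at this
    exact this
  exact kill_of_points (𝒪 := 𝒪) htf (Finset.univ : Finset (Fin F.length))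
    (fun j => (F.get j).O) (fun j => (F.get j).χ) hinj t
    (fun j _ hj => ht (F.get j) (hloc _ (List.get_mem F j)) hj)

/-- **Clause (SUPP-NU) from the pointwise statement** (shape of `S38.IA.HasIAModule`, for any
representation `ρ` over `T` and any finite set `Piv`): if the representation is not unipotent
at the primes of `Piv` at every local `p`-adic point of `T` which kills `Ann_T(M)`, then every
`t ∈ T` vanishing at all characteristic-zero points which are not unipotent at `Piv` kills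
`M`. -/
theorem suppNU_of_points (hp𝒪 : (p : 𝒪) ∈ maximalIdeal 𝒪)
    (htf : ∀ l : 𝒪, l ≠ 0 → ∀ m : M, algebraMap 𝒪 T l • m = 0 → m = 0)
    (ρ : GaloisRepAdic T) (Piv : Finset ℕ)
    (hpts : ∀ P : PadicPoint p T, ∀ hP : IsLocalHom P.χ,
      (∀ a : T, (∀ m : M, a • m = 0) → P.χ a = 0) →
      ∀ q ∈ Piv, ¬ (ρ.baseChangeAlong P.χ hP).IsUnipotentOnInertiaAt q) :
    ∀ t : T,
      (∀ (𝒪' : Type) [CommRing 𝒪'] [IsDomain 𝒪'] [IsDiscreteValuationRing 𝒪'] [CharZero 𝒪']
          [Algebra 𝒪 𝒪'] (x : T →ₐ[𝒪] 𝒪') (hx : IsLocalHom (x : T →+* 𝒪')),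
          (∀ q ∈ Piv,
            ¬ (ρ.baseChangeAlong (x : T →+* 𝒪') hx).IsUnipotentOnInertiaAt q) →
          x t = 0) →
      ∀ m : M, t • m = 0 := by
  intro t ht
  refine kill p hp𝒪 htf t ?_
  intro P hP hann
  letI : Algebra 𝒪 P.O := (P.χ.comp (algebraMap 𝒪 T)).toAlgebra
  let x : T →ₐ[𝒪] P.O := { P.χ with commutes' := fun _ => rfl }
  exact ht P.O x hP (hpts P hP hann)

end Padic

end Fermat.Agent.S38.H113
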