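import Fermat.Agent.S38.H113.StGal
import Fermat.Agent.S58.H94.EigChar
import Fermat.Agent.S49.LinAlg
import Fermat.Agent.Lib.Newform.Main
import Fermat.Agent.Lib.Newform.H863.GoodEigen

/-!
# Row HARD, leaf (ST): the dictionary **POINT → NEWFORM** and **ST-POINT**   (helper113)

`χ : heckeAlgebra N 2 Sig →+* R` a character of the anemic Hecke algebra of level `N` away from
`Sig ⊇ primes(N)` with values in ANY domain `R` (characteristic `0` or `p`).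

* `exists_lift_of_char` (Deligne–Serre lifting, characteristic-free): a subring `R₀ ⊆ ℂ`, a ring
  homomorphism `L : R₀ →+* R` and a normalised eigenform `f` of level `N` with `a_ℓ(f) ∈ R₀` and
  `L (a_ℓ(f)) = χ (T_ℓ)` for all primes `ℓ ∉ Sig`.
* `OccursAt χ N'` : the eigensystem `χ` occurs at the level `N'` (a character `χ₁` of the Hecke
  algebra of level `N'` with the same values at the `T_ℓ`, `ℓ ∉ Sig`).
* `exists_newform_of_char` : a newform `g` of a level `M ∣ N`, its eigencharacter `chig` and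
  `iota : chig.range →+* R` with `iota (chig T_ℓ) = χ (T_ℓ)`; and `χ` occurs at every level `N'`
  with `M ∣ N'`, `N' ∣ N`.
* `exists_newform_of_new` : if `q ∥ N` and `χ` does NOT occur at the level `N / q`, then `q ∥ M`.
* `stPoint` (**ST-POINT**): for a characteristic-zero point `x` of a Hecke–Galois datum (of any
  level) whose eigensystem is `χ` (of level `N`, `q ∥ N`) and does not occur at level `N / q`:
  `x (tr ρ(φ)² - (1 + q)²) = 0` at every Frobenius `φ` at `q`.   (Frozen S35 as a hypothesis.)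
-/

set_option autoImplicit false
set_option linter.style.haveILetI false

open Polynomial IsLocalRing CuspForm CongruenceSubgroup ModularFormClass

namespace Fermat.Agent.S38.H113

open Fermat.Agent.S58 Fermat.Agent.S58.H94

/-! ## Factoring a character through the range of another -/

section Lift

variable {B R R' : Type*} [CommRing B] [CommRing R] [CommRing R']

/-- If `ker χ' ≤ ker χ` then `χ` factors through the range of `χ'`. -/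
noncomputable def rangeLift (χ' : B →+* R') (χ : B →+* R)
    (h : RingHom.ker χ' ≤ RingHom.ker χ) : χ'.range →+* R :=
  RingHom.liftOfRightInverse χ'.rangeRestrict
    (Function.surjInv χ'.rangeRestrict_surjective)
    (Function.rightInverse_surjInv χ'.rangeRestrict_surjective)
    ⟨χ, by rwa [RingHom.ker_rangeRestrict]⟩

theorem rangeLift_apply (χ' : B →+* R') (χ : B →+* R)
    (h : RingHom.ker χ' ≤ RingHom.ker χ) (b : B) :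
    rangeLift χ' χ h (χ'.rangeRestrict b) = χ b :=
  RingHom.liftOfRightInverse_comp_apply _ _ _ _ b

end Lift

/-! ## The lifting lemma -/

section Dict

variable {N : ℕ} [NeZero N] {Sig : Finset ℕ} {R : Type*} [CommRing R] [IsDomain R]

/-- **Lifting lemma.**  A character of the anemic Hecke algebra with values in a domain is the
reduction, along a ring homomorphism `L` defined on a subring of `ℂ`, of the eigencharacter of
a normalised eigenform of the same level. -/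
theorem exists_lift_of_char (χ : heckeAlgebra N 2 (↑Sig : Set ℕ) →+* R) :
    ∃ (R₀ : Subring ℂ) (L : R₀ →+* R) (f : CuspForm (Gamma0 N) 2),
      f.IsNormalizedEigenform ∧
      ∀ (ℓ : ℕ) (hℓ : ℓ.Prime) (hℓN : ¬ ℓ ∣ N) (hℓS : ℓ ∉ (↑Sig : Set ℕ)),
        ∃ h : qCoeff f ℓ ∈ R₀, L ⟨qCoeff f ℓ, h⟩ = χ (heckeAlgebra.T hℓ hℓN hℓS) := by
  classical
  haveI := Fermat.Agent.Lib.Newform.H863.finiteDimensional_cuspForm N
  haveI : (RingHom.ker χ).IsPrime := RingHom.ker_isPrime χ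
  obtain ⟨h, χ', hh, hχ', hker⟩ := Fermat.Agent.S49.exists_eigenvector_ker_le
    (K := ℂ) (V := CuspForm (Gamma0 N) 2)
    ((heckeAlgebra N 2 (↑Sig : Set ℕ)).val.toRingHom) Subtype.val_injective (RingHom.ker χ)
  let lam : ℕ → ℂ := fun ℓ =>
    if hc : ℓ.Prime ∧ ¬ ℓ ∣ N ∧ ℓ ∉ (↑Sig : Set ℕ) then
      χ' (heckeAlgebra.T hc.1 hc.2.1 hc.2.2) else 0
  have hlam : ∀ (ℓ : ℕ) (hℓ : ℓ.Prime) (hℓN : ¬ ℓ ∣ N) (hℓS : ℓ ∉ (↑Sig : Set ℕ)),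
      lam ℓ = χ' (heckeAlgebra.T hℓ hℓN hℓS) := by
    intro ℓ hℓ hℓN hℓS
    simp only [lam, dif_pos (⟨hℓ, hℓN, hℓS⟩ : ℓ.Prime ∧ ¬ ℓ ∣ N ∧ ℓ ∉ (↑Sig : Set ℕ))]
  obtain ⟨f, hf, hfl⟩ := Fermat.Agent.Lib.Newform.H863.exists_normalizedEigenform_of_eigenvector
    (↑Sig : Set ℕ) lam h hh (fun ℓ hℓ hℓN hℓS => by
      have h1 := hχ' (heckeAlgebra.T hℓ hℓN hℓS)
      rw [hlam ℓ hℓ hℓN hℓS]
      exact h1)
  refine ⟨χ'.range, rangeLift χ' χ hker, f, hf, fun ℓ hℓ hℓN hℓS => ?_⟩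
  have e : qCoeff f ℓ = χ' (heckeAlgebra.T hℓ hℓN hℓS) := by
    rw [hfl ℓ hℓ hℓN hℓS, hlam ℓ hℓ hℓN hℓS]
  refine ⟨e ▸ ⟨_, rfl⟩, ?_⟩
  have e2 : (⟨qCoeff f ℓ, e ▸ ⟨_, rfl⟩⟩ : χ'.range)
      = χ'.rangeRestrict (heckeAlgebra.T hℓ hℓN hℓS) := Subtype.ext e
  rw [e2, rangeLift_apply]

/-- The eigensystem `χ` (of level `N`, away from `Sig`) **occurs at the level `N'`**. -/
def OccursAt (χ : heckeAlgebra N 2 (↑Sig : Set ℕ) →+* R) (N' : ℕ) : Prop :=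
  ∃ (_ : NeZero N') (χ₁ : heckeAlgebra N' 2 (↑Sig : Set ℕ) →+* R),
    ∀ (ℓ : ℕ) (hℓ : ℓ.Prime) (hℓN : ¬ ℓ ∣ N) (hℓN' : ¬ ℓ ∣ N') (hℓS : ℓ ∉ (↑Sig : Set ℕ)),
      χ₁ (heckeAlgebra.T hℓ hℓN' hℓS) = χ (heckeAlgebra.T hℓ hℓN hℓS)

omit [IsDomain R] in
/-- A normalised eigenform of level `M'` (primes of `M'` in `Sig`) with coefficients in `R₀`
away from `Sig` gives a character of the Hecke algebra of level `M'` with values in `R`. -/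
theorem exists_char_of_eigenform {M' : ℕ} [NeZero M'] {g : CuspForm (Gamma0 M') 2}
    (hg : g.IsNormalizedEigenform) (hMS : ∀ q : ℕ, q.Prime → q ∣ M' → q ∈ Sig)
    (R₀ : Subring ℂ) (L : R₀ →+* R)
    (hR : ∀ ℓ : ℕ, ℓ.Prime → ¬ ℓ ∣ M' → ℓ ∉ (↑Sig : Set ℕ) → qCoeff g ℓ ∈ R₀) :
    ∃ iota : (chigOf hg (↑Sig : Set ℕ)).range →+* R,
      ∀ (ℓ : ℕ) (hℓ : ℓ.Prime) (hℓM : ¬ ℓ ∣ M') (hℓS : ℓ ∉ (↑Sig : Set ℕ)),
        iota ((chigOf hg (↑Sig : Set ℕ)).rangeRestrict (heckeAlgebra.T hℓ hℓM hℓS))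
          = L ⟨qCoeff g ℓ, hR ℓ hℓ hℓM hℓS⟩ := by
  have hle : (chigOf hg (↑Sig : Set ℕ)).range ≤ R₀ :=
    chigOf_range_le hg (↑Sig : Set ℕ) R₀ hR
      (fun q hq hqM => Finset.mem_coe.mpr (hMS q hq hqM))
  refine ⟨L.comp (Subring.inclusion hle), fun ℓ hℓ hℓM hℓS => ?_⟩
  rw [RingHom.comp_apply]
  congr 1
  apply Subtype.ext
  show chigOf hg (↑Sig : Set ℕ) (heckeAlgebra.T hℓ hℓM hℓS) = qCoeff g ℓ
  exact chigOf_T hg (↑Sig : Set ℕ) hℓ hℓM hℓS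

/-- **POINT → NEWFORM.**  The eigensystem of a character `χ` of the anemic Hecke algebra of
level `N` (away from `Sig ⊇ primes(N)`) is that of a newform `g` of a level `M ∣ N`, along a ring
homomorphism `iota` from the coefficient ring of `g`; and `χ` occurs at every level between
`M` and `N`. -/
theorem exists_newform_of_char (hNS : ∀ q : ℕ, q.Prime → q ∣ N → q ∈ Sig)
    (χ : heckeAlgebra N 2 (↑Sig : Set ℕ) →+* R) :
    ∃ (M : ℕ) (_ : NeZero M) (_ : M ∣ N) (g : CuspForm (Gamma0 M) 2) (hg : g.IsNewform)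
      (iota : (chigOf hg.1 (↑Sig : Set ℕ)).range →+* R),
      (∀ (ℓ : ℕ) (hℓ : ℓ.Prime) (hℓN : ¬ ℓ ∣ N) (hℓM : ¬ ℓ ∣ M) (hℓS : ℓ ∉ (↑Sig : Set ℕ)),
        iota ((chigOf hg.1 (↑Sig : Set ℕ)).rangeRestrict (heckeAlgebra.T hℓ hℓM hℓS))
          = χ (heckeAlgebra.T hℓ hℓN hℓS)) ∧
      ∀ N' : ℕ, M ∣ N' → N' ∣ N → OccursAt χ N' := by
  obtain ⟨R₀, L, f, hf, hfL⟩ := exists_lift_of_char χ
  obtain ⟨M, hMN, g, hg, hgf⟩ := Fermat.Agent.Lib.Newform.descent N f hf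
  have hM0 : M ≠ 0 := fun h0 => NeZero.ne N (by rw [h0] at hMN; exact zero_dvd_iff.mp hMN)
  haveI : NeZero M := ⟨hM0⟩
  -- primes not in `Sig` do not divide `N`
  have hSN : ∀ ℓ : ℕ, ℓ.Prime → ℓ ∉ (↑Sig : Set ℕ) → ¬ ℓ ∣ N := fun ℓ hℓ hℓS hℓN =>
    hℓS (Finset.mem_coe.mpr (hNS ℓ hℓ hℓN))
  have hMS : ∀ q : ℕ, q.Prime → q ∣ M → q ∈ Sig := fun q hq hqM =>
    hNS q hq (hqM.trans hMN)
  have hR : ∀ ℓ : ℕ, ℓ.Prime → ¬ ℓ ∣ M → ℓ ∉ (↑Sig : Set ℕ) → qCoeff g ℓ ∈ R₀ := by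
    intro ℓ hℓ _ hℓS
    rw [hgf ℓ hℓ (hSN ℓ hℓ hℓS)]
    exact (hfL ℓ hℓ (hSN ℓ hℓ hℓS) hℓS).1
  obtain ⟨iota, hiota⟩ := exists_char_of_eigenform hg.1 hMS R₀ L hR
  refine ⟨M, inferInstance, hMN, g, hg, iota, fun ℓ hℓ hℓN hℓM hℓS => ?_, ?_⟩
  · rw [hiota ℓ hℓ hℓM hℓS]
    obtain ⟨h1, h2⟩ := hfL ℓ hℓ hℓN hℓS
    rw [← h2]
    congr 1
    exact Subtype.ext (hgf ℓ hℓ hℓN)
  · intro N' hMN' hN'N
    have hN'0 : N' ≠ 0 := fun h0 => NeZero.ne N (by rw [h0] at hN'N; exact zero_dvd_iff.mp hN'N)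
    haveI : NeZero N' := ⟨hN'0⟩
    obtain ⟨g', hg', hg'g⟩ := Fermat.Agent.Lib.Newform.stab M N' hMN' g hg.1
    have hN'S : ∀ q : ℕ, q.Prime → q ∣ N' → q ∈ Sig := fun q hq hqN' =>
      hNS q hq (hqN'.trans hN'N)
    have hR' : ∀ ℓ : ℕ, ℓ.Prime → ¬ ℓ ∣ N' → ℓ ∉ (↑Sig : Set ℕ) → qCoeff g' ℓ ∈ R₀ := by
      intro ℓ hℓ hℓN' hℓS
      rw [hg'g ℓ hℓ hℓN', hgf ℓ hℓ (hSN ℓ hℓ hℓS)]
      exact (hfL ℓ hℓ (hSN ℓ hℓ hℓS) hℓS).1
    obtain ⟨iota', hiota'⟩ := exists_char_of_eigenform hg' hN'S R₀ L hR'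
    refine ⟨inferInstance, iota'.comp (chigOf hg' (↑Sig : Set ℕ)).rangeRestrict,
      fun ℓ hℓ hℓN hℓN' hℓS => ?_⟩
    rw [RingHom.comp_apply, hiota' ℓ hℓ hℓN' hℓS]
    obtain ⟨h1, h2⟩ := hfL ℓ hℓ hℓN hℓS
    rw [← h2]
    congr 1
    exact Subtype.ext ((hg'g ℓ hℓ hℓN').trans (hgf ℓ hℓ hℓN))

/-- **POINT → NEWFORM, `q`-new case.**  If `q ∥ N` and the eigensystem `χ` does not occur at the
level `N / q`, then the level `M` of its newform satisfies `q ∥ M`. -/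
theorem exists_newform_of_new (hNS : ∀ q : ℕ, q.Prime → q ∣ N → q ∈ Sig)
    (χ : heckeAlgebra N 2 (↑Sig : Set ℕ) →+* R)
    (q : ℕ) (hq : q.Prime) (hqN : q ∣ N) (hq2 : ¬ q ^ 2 ∣ N) (hnew : ¬ OccursAt χ (N / q)) :
    ∃ (M : ℕ) (_ : NeZero M) (_ : M ∣ N) (g : CuspForm (Gamma0 M) 2) (hg : g.IsNewform)
      (iota : (chigOf hg.1 (↑Sig : Set ℕ)).range →+* R),
      (∀ (ℓ : ℕ) (hℓ : ℓ.Prime) (hℓN : ¬ ℓ ∣ N) (hℓM : ¬ ℓ ∣ M) (hℓS : ℓ ∉ (↑Sig : Set ℕ)),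
        iota ((chigOf hg.1 (↑Sig : Set ℕ)).rangeRestrict (heckeAlgebra.T hℓ hℓM hℓS))
          = χ (heckeAlgebra.T hℓ hℓN hℓS)) ∧
      q ∣ M ∧ ¬ q ^ 2 ∣ M := by
  obtain ⟨M, hM, hMN, g, hg, iota, hiota, hocc⟩ := exists_newform_of_char hNS χ
  refine ⟨M, hM, hMN, g, hg, iota, hiota, ?_, fun h => hq2 (h.trans hMN)⟩
  by_contra hqM
  apply hnew
  apply hocc (N / q) ?_ (Nat.div_dvd_of_dvd hqN)
  -- `M ∣ N = q * (N / q)` and `q ∤ M`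
  have hcop : Nat.Coprime M q := (Nat.Coprime.symm ((Nat.Prime.coprime_iff_not_dvd hq).mpr hqM))
  have : M ∣ q * (N / q) := by rwa [Nat.mul_div_cancel' hqN]
  exact hcop.dvd_of_dvd_mul_left this

end Dict

/-! ## ST-POINT -/

section Point

variable {N₀ : ℕ} [NeZero N₀] {Sig₀ : Finset ℕ}
  {𝒪 : Type} [CommRing 𝒪] [IsDomain 𝒪] [IsDiscreteValuationRing 𝒪]
  [IsAdicComplete (maximalIdeal 𝒪) 𝒪]
  {θ : CuspForm.heckeAlgebra N₀ 2 (↑Sig₀ : Set ℕ) →+* ResidueField 𝒪}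
  {T : Type} [CommRing T] [IsLocalRing T] [IsNoetherianRing T]
  [IsAdicComplete (maximalIdeal T) T] [Algebra 𝒪 T] [IsLocalHom (algebraMap 𝒪 T)]
  [Module.Finite 𝒪 T] [Module.Free 𝒪 T]
  {𝒪' : Type} [CommRing 𝒪'] [IsDomain 𝒪'] [IsDiscreteValuationRing 𝒪']
  [IsAdicComplete (maximalIdeal 𝒪') 𝒪'] [Finite (ResidueField 𝒪')] [CharZero 𝒪']

/-- **ST-POINT.**  `H` a Hecke–Galois datum (level `N₀`, away from `Sig₀`), `x` a point of it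
with values in a complete DVR `𝒪'` of characteristic `0` and residue characteristic `lam`.
Suppose the eigensystem of `x` is a character `χ` of the Hecke algebra of a level `N` with
`q ∥ N` (away from `Sig ⊇ primes(N) ∪ {lam}`; compatibility at all primes outside a finite set
`B`), which does NOT occur at the level `N / q`.  Then the Steinberg element
`tr ρ(φ)² - (1 + q)²` vanishes at `x`, for every Frobenius `φ` at every place over `q ≠ lam`. -/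
theorem stPoint (hS35 : S35Statement)
    (H : CuspForm.HeckeGaloisRepDatum N₀ (↑Sig₀ : Set ℕ) 𝒪 θ T)
    (x : T →+* 𝒪') (hx : IsLocalHom x)
    (lam : ℕ) [Fact lam.Prime] (hlam : (lam : 𝒪') ∈ maximalIdeal 𝒪')
    {N : ℕ} [NeZero N] {Sig : Finset ℕ} (hlamS : lam ∈ Sig)
    (hNS : ∀ q : ℕ, q.Prime → q ∣ N → q ∈ Sig)
    (χ : heckeAlgebra N 2 (↑Sig : Set ℕ) →+* 𝒪') (B : Finset ℕ)
    (hcompat : ∀ (ℓ : ℕ) (hℓ : ℓ.Prime) (hℓN₀ : ¬ ℓ ∣ N₀) (hℓSig₀ : ℓ ∉ (↑Sig₀ : Set ℕ))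
      (hℓN : ¬ ℓ ∣ N) (hℓS : ℓ ∉ (↑Sig : Set ℕ)), ℓ ∉ B →
      x (H.π (heckeAlgebra.T hℓ hℓN₀ hℓSig₀)) = χ (heckeAlgebra.T hℓ hℓN hℓS))
    (q : ℕ) (hq : q.Prime) (hqlam : q ≠ lam) (hqN : q ∣ N) (hq2 : ¬ q ^ 2 ∣ N)
    (hnew : ¬ OccursAt χ (N / q))
    (P : ValuationSubring Qb) (hP : P.LiesOverPrime q) (φ : GQ) (hφ : P.IsFrobeniusAt φ q) :
    x (H.ρ.trace φ ^ 2 - ((1 + q : ℕ) : T) ^ 2) = 0 := by
  obtain ⟨M, hM, hMN, g, hg, iota, hiota, hqM, hqM2⟩ :=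
    exists_newform_of_new hNS χ q hq hqN hq2 hnew
  have hMS : ∀ r : ℕ, r.Prime → r ∣ M → r ∈ Sig := fun r hr hrM => hNS r hr (hrM.trans hMN)
  refine stGal hS35 H x hx hg lam hlam Sig hlamS hMS (chigOf hg.1 (↑Sig : Set ℕ))
    (fun ℓ hℓ hℓM hℓS => chigOf_T hg.1 (↑Sig : Set ℕ) hℓ hℓM hℓS) iota B ?_
    q hq hqlam hqM hqM2 P hP φ hφ
  intro ℓ hℓ hℓN₀ hℓSig₀ hℓM hℓS hℓB
  have hℓN : ¬ ℓ ∣ N := fun h => hℓS (Finset.mem_coe.mpr (hNS ℓ hℓ h))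
  rw [hcompat ℓ hℓ hℓN₀ hℓSig₀ hℓN hℓS hℓB, hiota ℓ hℓ hℓN hℓM hℓS]

end Point

end Fermat.Agent.S38.H113
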