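import Fermat.Agent.S58.Spec
import Fermat.Agent.S58.H93.Cheb

/-!
# Row HARD (row 37, Ihara avoidance), leaf (ST), Galois core **ST-GAL**   (helper113)

Board `coord/HARD.md` (trunk `origin/helper995`), clause (ST) of `S38.IA.HasIAModule`:
`h_q := tr ρ(φ_q)² - (1+q)²` is divisible by `ζ_p - 1` on the type-`χ` module, because `h_q` KILLS
the trivial-character module `M¹`; and `h_q` kills `M¹` because every characteristic-zero point
of the Hecke algebra in the support of `M¹` is `q`-new with `q ∥ level`, hence Steinberg at `q`.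

This file proves the Galois half, from the frozen S35 (as the hypothesis
`Fermat.Agent.S58.S35Statement`) and qualitative Chebotarev (`S58.H93.chebCharpoly`, on main):

* `stGal` : `H` a Hecke–Galois datum of level `N` away from `Sig` with coefficients `T`,
  `x : T →+* 𝒪'` a local homomorphism to a complete DVR of characteristic `0` with finite residue
  field of characteristic `lam`, `g` a newform of level `M` with Hecke character `chig`
  (away from `S'`), `iota : chig.range →+* 𝒪'` with `x (π T_ℓ) = iota (a_ℓ(g))` for all primes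
  `ℓ` outside a finite set `B`; `q ≠ lam` a prime with `q ∥ M`.  Then for EVERY Frobenius element
  `φ` at EVERY place over `q`:  `x (tr ρ(φ) ^ 2 - (1 + q) ^ 2) = 0`.
* `stGal_trace` : the same as `x (tr ρ(φ)) = (q + 1) ∨ x (tr ρ(φ)) = -(q + 1)`.
* `stGal_rep` : the version for an arbitrary `GaloisRepAdic 𝒪'` instead of a point of a datum.

Nothing about the level `N` of the datum is used (in the application `N = wilesLevel …` has
`q²` at the pivot, while `M` is the level of the newform of the point).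
-/

set_option autoImplicit false
set_option linter.style.haveILetI false

open Polynomial IsLocalRing

namespace Fermat.Agent.S38.H113

open Fermat.Agent.S58

/-! ## Linear algebra in rank two -/

/-- The trace of a two-dimensional adic representation is minus the linear coefficient of the
characteristic polynomial. -/
theorem trace_eq_neg_coeff_one {A : Type} [CommRing A] [IsLocalRing A] (ρ : GaloisRepAdic A)
    (σ : GQ) : ρ.trace σ = -(LinearMap.charpoly (ρ.ρ σ)).coeff 1 := by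
  classical
  let b : Module.Basis (Fin 2) A ρ.V := Module.finBasisOfFinrankEq A ρ.V ρ.finrank_eq
  unfold GaloisRepAdic.trace
  rw [LinearMap.trace_eq_matrix_trace A b, Matrix.trace_eq_neg_charpoly_coeff,
    LinearMap.charpoly_toMatrix]
  simp

/-- Characteristic polynomials commute with base change. -/
theorem charpoly_baseChangeAlong_h113 {A B : Type} [CommRing A] [IsLocalRing A] [CommRing B]
    [IsLocalRing B] (φ : A →+* B) (hφ : IsLocalHom φ) (ρ : GaloisRepAdic A) (σ : GQ) :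
    LinearMap.charpoly ((ρ.baseChangeAlong φ hφ).ρ σ) = (LinearMap.charpoly (ρ.ρ σ)).map φ := by
  letI : Algebra A B := φ.toAlgebra
  exact LinearMap.charpoly_baseChange (ρ.ρ σ) B

/-- The trace commutes with base change. -/
theorem trace_baseChangeAlong_h113 {A B : Type} [CommRing A] [IsLocalRing A] [CommRing B]
    [IsLocalRing B] (φ : A →+* B) (hφ : IsLocalHom φ) (ρ : GaloisRepAdic A) (σ : GQ) :
    (ρ.baseChangeAlong φ hφ).trace σ = φ (ρ.trace σ) := by
  rw [trace_eq_neg_coeff_one, trace_eq_neg_coeff_one, charpoly_baseChangeAlong_h113,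
    Polynomial.coeff_map, map_neg]

/-- The linear coefficient of `X² - a X + b`. -/
theorem coeff_one_quadratic {R : Type} [CommRing R] (a b : R) :
    (X ^ 2 - C a * X + C b : R[X]).coeff 1 = -a := by
  simp [coeff_X_pow, coeff_C]

/-- The linear coefficient of `X² + a X + b`. -/
theorem coeff_one_quadratic' {R : Type} [CommRing R] (a b : R) :
    (X ^ 2 + C a * X + C b : R[X]).coeff 1 = a := by
  simp [coeff_X_pow, coeff_C]

/-! ## ST-GAL for a representation -/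

section Rep

variable {𝒪' : Type} [CommRing 𝒪'] [IsDomain 𝒪'] [IsDiscreteValuationRing 𝒪']
  [IsAdicComplete (maximalIdeal 𝒪') 𝒪'] [Finite (ResidueField 𝒪')] [CharZero 𝒪']

/-- **ST-GAL, representation form.**  A `lam`-adic representation `ρ'` with the Frobenius
characteristic polynomials of a newform `g` of level `M` outside a finite set `B` of primes has
Frobenius trace `± (q + 1)` at every prime `q ≠ lam` with `q ∥ M`. -/
theorem stGal_rep (hS35 : S35Statement)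
    {M : ℕ} [NeZero M] {g : CuspForm (CongruenceSubgroup.Gamma0 M) 2} (hg : g.IsNewform)
    (lam : ℕ) [Fact lam.Prime] (hlam : (lam : 𝒪') ∈ maximalIdeal 𝒪')
    (S' : Finset ℕ) (hlamS : lam ∈ S') (hMS : ∀ q : ℕ, q.Prime → q ∣ M → q ∈ S')
    (chig : CuspForm.heckeAlgebra M 2 (↑S' : Set ℕ) →+* ℂ)
    (hchig : ∀ (ℓ : ℕ) (hℓ : ℓ.Prime) (hℓM : ¬ ℓ ∣ M) (hℓS : ℓ ∉ (↑S' : Set ℕ)),
      chig (CuspForm.heckeAlgebra.T hℓ hℓM hℓS) = ModularFormClass.qCoeff g ℓ)
    (iota : chig.range →+* 𝒪')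
    (ρ' : GaloisRepAdic 𝒪') (B : Finset ℕ)
    (hρ' : ∀ (ℓ : ℕ) (hℓ : ℓ.Prime) (hℓM : ¬ ℓ ∣ M) (hℓS : ℓ ∉ (↑S' : Set ℕ)), ℓ ∉ B →
      ∀ A : ValuationSubring Qb, A.LiesOverPrime ℓ → ∀ σ : GQ, A.IsFrobeniusAt σ ℓ →
        LinearMap.charpoly (ρ'.ρ σ) =
          X ^ 2 - C (iota (chig.rangeRestrict (CuspForm.heckeAlgebra.T hℓ hℓM hℓS))) * X
            + C ((ℓ : 𝒪')))
    (q : ℕ) (hq : q.Prime) (hqlam : q ≠ lam) (hqM : q ∣ M) (hq2 : ¬ q ^ 2 ∣ M)
    (P : ValuationSubring Qb) (hP : P.LiesOverPrime q) (φ : GQ) (hφ : P.IsFrobeniusAt φ q) :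
    ρ'.trace φ = (q : 𝒪') + 1 ∨ ρ'.trace φ = -((q : 𝒪') + 1) := by
  obtain ⟨O'', i1, i2, i3, i4, i5, i6, i7, i8, i9, hinj, ρg, hρg, hρq⟩ :=
    hS35 hg lam S' 𝒪' hlam chig hchig iota hlamS hMS
  -- the base change of `ρ'` to `O''`
  set ρ₁ : GaloisRepAdic O'' := ρ'.baseChangeAlong (algebraMap 𝒪' O'') i9 with hρ₁
  -- the two representations have the same Frobenius characteristic polynomials outside
  -- `S' ∪ B ∪ primeFactors M`
  have hcmp : ∀ σ : GQ, LinearMap.charpoly (ρ₁.ρ σ) = LinearMap.charpoly (ρg.ρ σ) := by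
    refine chebCharpolyAux O'' ρ₁ ρg (S' ∪ B ∪ M.primeFactors) ?_
    intro ℓ hℓ hℓT A hA σ hσ
    have hℓS : ℓ ∉ (↑S' : Set ℕ) := fun h => hℓT (by
      simp only [Finset.mem_union]; exact Or.inl (Or.inl (Finset.mem_coe.mp h)))
    have hℓB : ℓ ∉ B := fun h => hℓT (by
      simp only [Finset.mem_union]; exact Or.inl (Or.inr h))
    have hℓM : ¬ ℓ ∣ M := fun h => hℓT (by
      simp only [Finset.mem_union]
      exact Or.inr (Nat.mem_primeFactors.mpr ⟨hℓ, h, NeZero.ne M⟩))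
    rw [hρ₁, charpoly_baseChangeAlong_h113, hρ' ℓ hℓ hℓM hℓS hℓB A hA σ hσ,
      hρg ℓ hℓ hℓM hℓS A hA σ hσ]
    simp only [Polynomial.map_add, Polynomial.map_sub, Polynomial.map_mul, Polynomial.map_pow,
      Polynomial.map_X, Polynomial.map_C, Polynomial.map_natCast, map_natCast,
      RingHom.comp_apply]
  -- at `q`
  have h1 : algebraMap 𝒪' O'' (ρ'.trace φ) = -(LinearMap.charpoly (ρg.ρ φ)).coeff 1 := by
    rw [← hcmp φ, ← trace_eq_neg_coeff_one, hρ₁, trace_baseChangeAlong_h113]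
  rcases hρq q hq hqlam hqM hq2 P hP φ hφ with h | h
  · left
    apply hinj
    rw [h1, h, coeff_one_quadratic, neg_neg, map_add, map_natCast, map_one]
  · right
    apply hinj
    rw [h1, h, coeff_one_quadratic', map_neg, map_add, map_natCast, map_one]
where
  /-- `S58.H93.chebCharpoly` with explicit instance arguments. -/
  chebCharpolyAux (O : Type) [CommRing O] [IsDomain O] [IsDiscreteValuationRing O]
      [IsAdicComplete (IsLocalRing.maximalIdeal O) O] [Finite (IsLocalRing.ResidueField O)]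
      (ρ₁ ρ₂ : GaloisRepAdic O) (T : Finset ℕ)
      (h : ∀ ℓ : ℕ, ℓ.Prime → ℓ ∉ T → ∀ A : ValuationSubring Qb, A.LiesOverPrime ℓ →
        ∀ σ : GQ, A.IsFrobeniusAt σ ℓ →
          LinearMap.charpoly (ρ₁.ρ σ) = LinearMap.charpoly (ρ₂.ρ σ)) :
      ∀ σ : GQ, LinearMap.charpoly (ρ₁.ρ σ) = LinearMap.charpoly (ρ₂.ρ σ) :=
    Fermat.Agent.S58.H93.chebCharpoly O ρ₁ ρ₂ T h

end Rep

/-! ## ST-GAL for a point of a Hecke–Galois datum -/

section Point

variable {N : ℕ} [NeZero N] {Sig : Finset ℕ}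
  {𝒪 : Type} [CommRing 𝒪] [IsDomain 𝒪] [IsDiscreteValuationRing 𝒪]
  [IsAdicComplete (maximalIdeal 𝒪) 𝒪]
  {θ : CuspForm.heckeAlgebra N 2 (↑Sig : Set ℕ) →+* ResidueField 𝒪}
  {T : Type} [CommRing T] [IsLocalRing T] [IsNoetherianRing T]
  [IsAdicComplete (maximalIdeal T) T] [Algebra 𝒪 T] [IsLocalHom (algebraMap 𝒪 T)]
  [Module.Finite 𝒪 T] [Module.Free 𝒪 T]
  {𝒪' : Type} [CommRing 𝒪'] [IsDomain 𝒪'] [IsDiscreteValuationRing 𝒪']
  [IsAdicComplete (maximalIdeal 𝒪') 𝒪'] [Finite (ResidueField 𝒪')] [CharZero 𝒪']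

/-- **ST-GAL, trace form.**  At a characteristic-zero point `x` of a Hecke–Galois datum whose
eigensystem is that of a newform `g` of level `M` (outside a finite set `B` of primes), the
Frobenius traces at a prime `q ≠ lam`, `q ∥ M`, are `± (q + 1)`. -/
theorem stGal_trace (hS35 : S35Statement)
    (H : CuspForm.HeckeGaloisRepDatum N (↑Sig : Set ℕ) 𝒪 θ T)
    (x : T →+* 𝒪') (hx : IsLocalHom x)
    {M : ℕ} [NeZero M] {g : CuspForm (CongruenceSubgroup.Gamma0 M) 2} (hg : g.IsNewform)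
    (lam : ℕ) [Fact lam.Prime] (hlam : (lam : 𝒪') ∈ maximalIdeal 𝒪')
    (S' : Finset ℕ) (hlamS : lam ∈ S') (hMS : ∀ q : ℕ, q.Prime → q ∣ M → q ∈ S')
    (chig : CuspForm.heckeAlgebra M 2 (↑S' : Set ℕ) →+* ℂ)
    (hchig : ∀ (ℓ : ℕ) (hℓ : ℓ.Prime) (hℓM : ¬ ℓ ∣ M) (hℓS : ℓ ∉ (↑S' : Set ℕ)),
      chig (CuspForm.heckeAlgebra.T hℓ hℓM hℓS) = ModularFormClass.qCoeff g ℓ)
    (iota : chig.range →+* 𝒪') (B : Finset ℕ)
    (hcompat : ∀ (ℓ : ℕ) (hℓ : ℓ.Prime) (hℓN : ¬ ℓ ∣ N) (hℓSig : ℓ ∉ (↑Sig : Set ℕ))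
      (hℓM : ¬ ℓ ∣ M) (hℓS : ℓ ∉ (↑S' : Set ℕ)), ℓ ∉ B →
      x (H.π (CuspForm.heckeAlgebra.T hℓ hℓN hℓSig)) =
        iota (chig.rangeRestrict (CuspForm.heckeAlgebra.T hℓ hℓM hℓS)))
    (q : ℕ) (hq : q.Prime) (hqlam : q ≠ lam) (hqM : q ∣ M) (hq2 : ¬ q ^ 2 ∣ M)
    (P : ValuationSubring Qb) (hP : P.LiesOverPrime q) (φ : GQ) (hφ : P.IsFrobeniusAt φ q) :
    x (H.ρ.trace φ) = (q : 𝒪') + 1 ∨ x (H.ρ.trace φ) = -((q : 𝒪') + 1) := by
  have key := stGal_rep hS35 hg lam hlam S' hlamS hMS chig hchig iota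
    (H.ρ.baseChangeAlong x hx) (B ∪ Sig ∪ N.primeFactors) ?_ q hq hqlam hqM hq2 P hP φ hφ
  · rwa [trace_baseChangeAlong_h113] at key
  · intro ℓ hℓ hℓM hℓS hℓB A hA σ hσ
    have hℓB' : ℓ ∉ B := fun h => hℓB (by
      simp only [Finset.mem_union]; exact Or.inl (Or.inl h))
    have hℓSig : ℓ ∉ (↑Sig : Set ℕ) := fun h => hℓB (by
      simp only [Finset.mem_union]; exact Or.inl (Or.inr (Finset.mem_coe.mp h)))
    have hℓN : ¬ ℓ ∣ N := fun h => hℓB (by
      simp only [Finset.mem_union]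
      exact Or.inr (Nat.mem_primeFactors.mpr ⟨hℓ, h, NeZero.ne N⟩))
    rw [charpoly_baseChangeAlong_h113, H.charpoly_frob ℓ hℓ hℓN hℓSig A hA σ hσ,
      ← hcompat ℓ hℓ hℓN hℓSig hℓM hℓS hℓB']
    simp only [Polynomial.map_add, Polynomial.map_sub, Polynomial.map_mul, Polynomial.map_pow,
      Polynomial.map_X, Polynomial.map_C, Polynomial.map_natCast, map_natCast]

/-- **ST-GAL.**  The Steinberg element `h_q = tr ρ(φ)² - (1 + q)²` of a Hecke–Galois datum
vanishes at every characteristic-zero point whose newform has level exactly divisible by `q`. -/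
theorem stGal (hS35 : S35Statement)
    (H : CuspForm.HeckeGaloisRepDatum N (↑Sig : Set ℕ) 𝒪 θ T)
    (x : T →+* 𝒪') (hx : IsLocalHom x)
    {M : ℕ} [NeZero M] {g : CuspForm (CongruenceSubgroup.Gamma0 M) 2} (hg : g.IsNewform)
    (lam : ℕ) [Fact lam.Prime] (hlam : (lam : 𝒪') ∈ maximalIdeal 𝒪')
    (S' : Finset ℕ) (hlamS : lam ∈ S') (hMS : ∀ q : ℕ, q.Prime → q ∣ M → q ∈ S')
    (chig : CuspForm.heckeAlgebra M 2 (↑S' : Set ℕ) →+* ℂ)
    (hchig : ∀ (ℓ : ℕ) (hℓ : ℓ.Prime) (hℓM : ¬ ℓ ∣ M) (hℓS : ℓ ∉ (↑S' : Set ℕ)),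
      chig (CuspForm.heckeAlgebra.T hℓ hℓM hℓS) = ModularFormClass.qCoeff g ℓ)
    (iota : chig.range →+* 𝒪') (B : Finset ℕ)
    (hcompat : ∀ (ℓ : ℕ) (hℓ : ℓ.Prime) (hℓN : ¬ ℓ ∣ N) (hℓSig : ℓ ∉ (↑Sig : Set ℕ))
      (hℓM : ¬ ℓ ∣ M) (hℓS : ℓ ∉ (↑S' : Set ℕ)), ℓ ∉ B →
      x (H.π (CuspForm.heckeAlgebra.T hℓ hℓN hℓSig)) =
        iota (chig.rangeRestrict (CuspForm.heckeAlgebra.T hℓ hℓM hℓS)))
    (q : ℕ) (hq : q.Prime) (hqlam : q ≠ lam) (hqM : q ∣ M) (hq2 : ¬ q ^ 2 ∣ M)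
    (P : ValuationSubring Qb) (hP : P.LiesOverPrime q) (φ : GQ) (hφ : P.IsFrobeniusAt φ q) :
    x (H.ρ.trace φ ^ 2 - ((1 + q : ℕ) : T) ^ 2) = 0 := by
  rw [map_sub, map_pow, map_pow, map_natCast, sub_eq_zero]
  rcases stGal_trace hS35 H x hx hg lam hlam S' hlamS hMS chig hchig iota B hcompat q hq hqlam
    hqM hq2 P hP φ hφ with h | h
  · rw [h]; push_cast; ring
  · rw [h]; push_cast; ring

end Point

end Fermat.Agent.S38.H113
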